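import Fermat.Agent.GT.Glue.GeoDefs

/-!
# Project GT, module V5 (= VAL layer 5, abstract part): definitions

`F` = function field of level `q² N₁`, `F'` = level `q N₁`.  `𝒪 0 = 𝒪_∞`, `𝒪 1 = 𝒪_mid`,
`𝒪 2 = 𝒪_0` the three vertical valuation subrings of `F`, `Oa' = 𝒪'_∞`, `Oc' = 𝒪'_0` those of `F'`.
`ϖ` is a uniformizer of `𝒪 0`, `𝒪 2`, `Oa'`, `Oc'`; `T` is a uniformizer of `𝒪 1`, a unit of `𝒪 0`
and `𝒪 2`, and `ϖ = T ^ (q - 1) * unit` in `𝒪 1`.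

Goal (file `Main`): if both norms of `u` are constants times `n`-th powers then
`ϖ ^ k * u ^ ((q + 1) (q - 1)) * z ^ n ≡ b i` at `𝒪 i` with units `b i` of `R`.
-/

set_option autoImplicit false

namespace Fermat.Agent.GT.V5

open Fermat.Agent.GR.E Fermat.Agent.GT

variable {R : Type*} [CommRing R] {F F' : Type*} [Field F] [Field F'] [Algebra R F] [Algebra R F']

/-- `x` is a unit of `O`. -/
def UnitAt (O : ValuationSubring F) (x : F) : Prop := O.valuation x = 1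

/-- `x = π ^ k * unit` in `O`. -/
def OrdAt (O : ValuationSubring F) (π x : F) (k : ℤ) : Prop :=
  O.valuation x = O.valuation π ^ k

/-- `O` is a discrete valuation ring with uniformizer `π`. -/
structure IsUnif (O : ValuationSubring F) (π : F) : Prop where
  lt_one : O.valuation π < 1
  ne_zero : π ≠ 0
  ex : ∀ x : F, x ≠ 0 → ∃ k : ℤ, OrdAt O π x k

/-- The five valuation rings. -/
structure Vals (ϖ : R) (q : ℕ) (𝒪 : Fin 3 → ValuationSubring F) (Oa' Oc' : ValuationSubring F')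
    (T : F) : Prop where
  two_le : 2 ≤ q
  u0 : IsUnif (𝒪 0) (algebraMap R F ϖ)
  u1 : IsUnif (𝒪 1) T
  u2 : IsUnif (𝒪 2) (algebraMap R F ϖ)
  ua' : IsUnif Oa' (algebraMap R F' ϖ)
  uc' : IsUnif Oc' (algebraMap R F' ϖ)
  ram : OrdAt (𝒪 1) T (algebraMap R F ϖ) ((q : ℤ) - 1)
  T0 : UnitAt (𝒪 0) T
  T2 : UnitAt (𝒪 2) T
  const : ∀ i, ∀ r : R, algebraMap R F r ∈ 𝒪 i
  const_a' : ∀ r : R, algebraMap R F' r ∈ Oa'
  const_c' : ∀ r : R, algebraMap R F' r ∈ Oc'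
  sep : ∀ i j, i ≠ j → ∃ e : F, (∀ k, e ∈ 𝒪 k) ∧ e ∈ (𝒪 j).nonunits ∧ e ∉ (𝒪 i).nonunits

/-- One of the two pairs `(φ, Nm)`; over `Oins'` there is only `Oins` (`e = 1`, `f = q` purely
inseparable), over `Oab'` there are `Oa` (`e = f = 1`) and `Ob` (`e = q - 1`, `f = 1`). -/
structure Half (q : ℕ) (φ : F' →ₐ[R] F) (Nm : F →* F')
    (Oins Oa Ob : ValuationSubring F) (Oins' Oab' : ValuationSubring F') : Prop where
  nv : Glue.NormVal q φ Nm Oins Oa Ob Oins' Oab'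
  comap_ins : ∀ y, φ y ∈ Oins ↔ y ∈ Oins'
  comap_a : ∀ y, φ y ∈ Oa ↔ y ∈ Oab'
  comap_b : ∀ y, φ y ∈ Ob ↔ y ∈ Oab'
  lift_a : ∀ x ∈ Oa, ∃ y ∈ Oab', x - φ y ∈ Oa.nonunits
  lift_b : ∀ x ∈ Ob, ∃ y ∈ Oab', x - φ y ∈ Ob.nonunits
  norm_const : ∀ r : R, Nm (algebraMap R F r) = algebraMap R F' r ^ q

end Fermat.Agent.GT.V5
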