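import Fermat.Agent.GT.V5.Defs

/-! GT-V5, file `OrdA`: calculus of `UnitAt` and of congruences (pure valuation theory). -/

set_option autoImplicit false

namespace Fermat.Agent.GT.V5

open Fermat.Agent.GR.E Fermat.Agent.GT

variable {R : Type*} [CommRing R] {F F' : Type*} [Field F] [Field F'] [Algebra R F] [Algebra R F']
variable {O : ValuationSubring F} {O' : ValuationSubring F'} {π x y : F} {k l : ℤ}

/-! ### units -/

theorem UnitAt.ne_zero (h : UnitAt O x) : x ≠ 0 := by
  rintro rfl
  unfold UnitAt at h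
  rw [map_zero] at h
  exact zero_ne_one h

theorem unitAt_iff : UnitAt O x ↔ x ∈ O ∧ x ∉ O.nonunits := by
  unfold UnitAt
  rw [← ValuationSubring.valuation_le_one_iff, ValuationSubring.mem_nonunits_iff, not_lt]
  exact ⟨fun h => ⟨h.le, h.ge⟩, fun h => le_antisymm h.1 h.2⟩

theorem UnitAt.mem (h : UnitAt O x) : x ∈ O := (unitAt_iff.1 h).1

theorem UnitAt.inv (h : UnitAt O x) : UnitAt O x⁻¹ := by
  unfold UnitAt at h ⊢
  rw [map_inv₀, h, inv_one]

theorem unitAt_one : UnitAt O (1 : F) := map_one _

theorem UnitAt.mul (hx : UnitAt O x) (hy : UnitAt O y) : UnitAt O (x * y) := by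
  unfold UnitAt at hx hy ⊢
  rw [map_mul, hx, hy, one_mul]

theorem UnitAt.div (hx : UnitAt O x) (hy : UnitAt O y) : UnitAt O (x / y) := by
  rw [div_eq_mul_inv]
  exact hx.mul hy.inv

theorem UnitAt.pow (hx : UnitAt O x) (n : ℕ) : UnitAt O (x ^ n) := by
  unfold UnitAt at hx ⊢
  rw [map_pow, hx, one_pow]

theorem UnitAt.zpow (hx : UnitAt O x) (n : ℤ) : UnitAt O (x ^ n) := by
  unfold UnitAt at hx ⊢
  rw [map_zpow₀, hx, one_zpow]

/-- an element congruent to a unit is a unit. -/
theorem UnitAt.of_sub_mem (hy : UnitAt O y) (h : x - y ∈ O.nonunits) : UnitAt O x := by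
  unfold UnitAt at hy ⊢
  rw [ValuationSubring.mem_nonunits_iff] at h
  have h1 := Valuation.map_add_eq_of_lt_left O.valuation (x := y) (y := x - y) (by rw [hy]; exact h)
  rw [add_sub_cancel, hy] at h1
  exact h1

/-- the image of a unit of `R` is a unit of `O`. -/
theorem unitAt_algebraMap (hR : ∀ r : R, algebraMap R F r ∈ O) {r : R} (hr : IsUnit r) :
    UnitAt O (algebraMap R F r) := by
  obtain ⟨u, rfl⟩ := hr
  have h1 : algebraMap R F (u : R) * algebraMap R F ((u⁻¹ : Rˣ) : R) = 1 := by
    rw [← map_mul, Units.mul_inv, map_one]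
  have h2 := congrArg O.valuation h1
  rw [map_mul, map_one] at h2
  have h3 : O.valuation (algebraMap R F (u : R)) ≤ 1 :=
    (ValuationSubring.valuation_le_one_iff O _).2 (hR _)
  have h4 : O.valuation (algebraMap R F ((u⁻¹ : Rˣ) : R)) ≤ 1 :=
    (ValuationSubring.valuation_le_one_iff O _).2 (hR _)
  unfold UnitAt
  refine le_antisymm h3 ?_
  calc (1 : O.ValueGroup) = O.valuation (algebraMap R F (u : R)) *
        O.valuation (algebraMap R F ((u⁻¹ : Rˣ) : R)) := h2.symm
    _ ≤ O.valuation (algebraMap R F (u : R)) * 1 := mul_le_mul_right h4 _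
    _ = O.valuation (algebraMap R F (u : R)) := mul_one _

/-- congruences can be multiplied by elements of `O` and raised to powers. -/
theorem cong_mul_left {a : F} (ha : a ∈ O) (h : x - y ∈ O.nonunits) :
    a * x - a * y ∈ O.nonunits := by
  rw [← mul_sub, ValuationSubring.mem_nonunits_iff, map_mul]
  rw [ValuationSubring.mem_nonunits_iff] at h
  have ha' : O.valuation a ≤ 1 := (ValuationSubring.valuation_le_one_iff O _).2 ha
  exact lt_of_le_of_lt (mul_le_of_le_one_left zero_le ha') h

theorem cong_symm (h : x - y ∈ O.nonunits) : y - x ∈ O.nonunits := by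
  rw [ValuationSubring.mem_nonunits_iff] at h ⊢
  rwa [Valuation.map_sub_swap]

theorem cong_trans {z : F} (h1 : x - y ∈ O.nonunits) (h2 : y - z ∈ O.nonunits) :
    x - z ∈ O.nonunits := by
  rw [ValuationSubring.mem_nonunits_iff] at h1 h2 ⊢
  have : x - z = (x - y) + (y - z) := by ring
  rw [this]
  exact Valuation.map_add_lt _ h1 h2

theorem cong_pow' (hy : y ∈ O) (h : x - y ∈ O.nonunits) (n : ℕ) :
    x ^ n - y ^ n ∈ O.nonunits := by
  have hx : x ∈ O := by
    have h1 : x - y ∈ O := by
      rw [ValuationSubring.mem_nonunits_iff] at h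
      exact (ValuationSubring.valuation_le_one_iff O _).1 h.le
    have : x = (x - y) + y := by ring
    rw [this]
    exact O.add_mem _ _ h1 hy
  induction n with
  | zero =>
    rw [pow_zero, pow_zero, sub_self, ValuationSubring.mem_nonunits_iff, map_zero]
    exact zero_lt_one
  | succ n ih =>
    have h1 : x ^ (n + 1) - y ^ (n + 1) = (x * x ^ n - x * y ^ n) + (y ^ n * x - y ^ n * y) := by
      ring
    rw [h1]
    have h2 := cong_mul_left hx ih
    have h3 := cong_mul_left (O.pow_mem hy n) h
    rw [ValuationSubring.mem_nonunits_iff] at h2 h3 ⊢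
    exact Valuation.map_add_lt _ h2 h3

end Fermat.Agent.GT.V5
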